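import Mathlib

/-!
# S56 / Euler / IND — leaf TRIND, part 1: separation of non-isomorphic simple modules
(helper366).  Mathlib only.

* `exists_smul_eq_self_and_zero`: for non-isomorphic simple modules `M`, `N` (finite sets) over a
  ring `R` there is `r ∈ R` acting as the identity on `M` and as `0` on `N`
  (Jacobson density on `M × N`).
-/

set_option autoImplicit false

noncomputable section

namespace Fermat.Agent.S56.Euler.H366

open LinearMap

variable {R M N : Type} [Ring R] [AddCommGroup M] [Module R M] [AddCommGroup N] [Module R N]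

instance isSemisimpleModule_prod [IsSemisimpleModule R M] [IsSemisimpleModule R N] :
    IsSemisimpleModule R (M × N) := by
  refine isSemisimpleModule_of_isSemisimpleModule_submodule'
    (p := fun b : Bool => cond b (range (inl R M N)) (range (inr R M N))) ?_ ?_
  · rintro (_ | _)
    · exact IsSemisimpleModule.range _
    · exact IsSemisimpleModule.range _
  · rw [iSup_bool_eq]
    exact sup_range_inl_inr

/-- Schur: there is no nonzero map between non-isomorphic simple modules. -/
lemma eq_zero_of_not_iso [IsSimpleModule R M] [IsSimpleModule R N]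
    (h : ¬ Nonempty (M ≃ₗ[R] N)) (f : M →ₗ[R] N) : f = 0 := by
  rcases f.bijective_or_eq_zero with hb | h0
  · exact absurd ⟨LinearEquiv.ofBijective f hb⟩ h
  · exact h0

/-- The projection `M × N → M × N`, `(m, n) ↦ (m, 0)`, as an endomorphism over `End_R(M × N)`. -/
def projFst [IsSimpleModule R M] [IsSimpleModule R N] (h : ¬ Nonempty (M ≃ₗ[R] N)) :
    Module.End (Module.End R (M × N)) (M × N) where
  toFun x := (x.1, 0)
  map_add' x y := by simp
  map_smul' φ x := by
    have h21 : (snd R M N) ∘ₗ φ ∘ₗ (inl R M N) = 0 := eq_zero_of_not_iso h _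
    have h12 : (fst R M N) ∘ₗ φ ∘ₗ (inr R M N) = 0 :=
      eq_zero_of_not_iso (fun ⟨e⟩ => h ⟨e.symm⟩) _
    have hx : x = (x.1, 0) + (0, x.2) := by simp
    have e1 : (φ (x.1, 0)).2 = 0 := LinearMap.congr_fun h21 x.1
    have e2 : (φ (0, x.2)).1 = 0 := LinearMap.congr_fun h12 x.2
    simp only [Module.End.smul_def, RingHom.id_apply]
    conv_lhs => rw [hx, map_add]
    have e3 : φ (x.1, 0) = ((φ (x.1, 0)).1, 0) := Prod.ext rfl e1
    rw [e3]
    simp [e2]

/-- Separation: `r` acts as the identity on `M` and as zero on `N`. -/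
theorem exists_smul_eq_self_and_zero [IsSimpleModule R M] [IsSimpleModule R N] [Finite M]
    [Finite N] (h : ¬ Nonempty (M ≃ₗ[R] N)) :
    ∃ r : R, (∀ m : M, r • m = m) ∧ ∀ n : N, r • n = 0 := by
  have : Fintype (M × N) := Fintype.ofFinite _
  obtain ⟨r, hr⟩ := jacobson_density (R := R) (M := M × N) (projFst h) Finset.univ
  refine ⟨r, fun m => ?_, fun n => ?_⟩
  · have := hr (m, 0) (Finset.mem_univ _)
    have h1 := congrArg Prod.fst this
    simpa [projFst] using h1.symm
  · have := hr (0, n) (Finset.mem_univ _)
    have h2 := congrArg Prod.snd this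
    simpa [projFst] using h2.symm

end Fermat.Agent.S56.Euler.H366

end
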