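import Mathlib

/-!
# S56 / Euler / IND — leaf TRIND, part 2: an element of nonzero trace on a simple module
(helper366).  Mathlib only.

* `exists_trace_mulRight_ne_zero`: finite division rings of characteristic `p` (little Wedderburn +
  separability).
* `exists_trace_smul_ne_zero`: a finite simple module `M` over a ring `R`, `p M = 0`: some `r ∈ R`
  acts on `M` with nonzero trace over `ZMod p` (Jacobson density for a rank-one `End_R(M)`-linear map).
-/

set_option autoImplicit false
set_option linter.style.haveILetI false

noncomputable section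

namespace Fermat.Agent.S56.Euler.H366

open LinearMap

/-- In a finite division ring of characteristic `p` some right multiplication has nonzero trace
over `ZMod p`. -/
theorem exists_trace_mulRight_ne_zero (p : ℕ) [Fact p.Prime] (E : Type) [DivisionRing E]
    [Finite E] [CharP E p] :
    letI := ZMod.algebra E p
    ∃ lam : E, LinearMap.trace (ZMod p) E ((AddMonoidHom.mulRight lam).toZModLinearMap p) ≠ 0 := by
  letI := ZMod.algebra E p
  let F : Field E := littleWedderburn E
  have hsurj := @Algebra.trace_surjective (ZMod p) E _ F (ZMod.algebra E p) _ _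
  obtain ⟨lam, hlam⟩ := hsurj 1
  refine ⟨lam, ?_⟩
  have : (AddMonoidHom.mulRight lam).toZModLinearMap p = Algebra.lmul (ZMod p) E lam := by
    ext e
    simp [mul_comm]
  rw [this, ← Algebra.trace_apply, hlam]
  exact one_ne_zero

/-- A simple module (finite, of characteristic `p`) has an element of the ring acting with
nonzero trace over `ZMod p`. -/
theorem exists_trace_smul_ne_zero (p : ℕ) [Fact p.Prime] {R M : Type} [Ring R] [AddCommGroup M]
    [Module R M] [Module (ZMod p) M] [Finite M] [IsSimpleModule R M] :
    ∃ r : R, LinearMap.trace (ZMod p) M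
      ((DistribSMul.toAddMonoidHom M r).toZModLinearMap p) ≠ 0 := by
  classical
  have finE : Finite (Module.End R M) :=
    Finite.of_injective (fun f : Module.End R M => (f : M → M)) DFunLike.coe_injective
  have hp0 : ((p : ℕ) : Module.End R M) = 0 := by
    ext m
    have : (p : ℕ) • m = 0 := by
      have h := Nat.cast_smul_eq_nsmul (ZMod p) p m
      rw [← h, ZMod.natCast_self, zero_smul]
    simpa [Nat.cast_smul_eq_nsmul] using this
  haveI charE : CharP (Module.End R M) p :=
    (CharP.charP_iff_prime_eq_zero (Fact.out : p.Prime)).2 hp0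
  letI algE := ZMod.algebra (Module.End R M) p
  obtain ⟨lam, hlam⟩ := exists_trace_mulRight_ne_zero p (Module.End R M)
  let b := Module.Free.chooseBasis (Module.End R M) M
  haveI : Nontrivial M := IsSimpleModule.nontrivial R M
  obtain ⟨i₀⟩ : Nonempty (Module.Free.ChooseBasisIndex (Module.End R M) M) :=
    b.index_nonempty
  let ℓ : M →ₗ[Module.End R M] Module.End R M := b.coord i₀
  let v : M := lam • b i₀
  let F : Module.End (Module.End R M) M := ℓ.smulRight v
  have : Fintype M := Fintype.ofFinite M
  obtain ⟨r, hr⟩ := jacobson_density (R := R) (M := M) F Finset.univ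
  refine ⟨r, ?_⟩
  let α : M →ₗ[ZMod p] Module.End R M := (ℓ.toAddMonoidHom).toZModLinearMap p
  let βa : Module.End R M →+ M :=
    { toFun := fun e => e v, map_zero' := rfl, map_add' := fun _ _ => rfl }
  let β : Module.End R M →ₗ[ZMod p] M := βa.toZModLinearMap p
  have h1 : (DistribSMul.toAddMonoidHom M r).toZModLinearMap p = β ∘ₗ α := by
    ext m
    have := hr m (Finset.mem_univ _)
    simp only [AddMonoidHom.coe_toZModLinearMap, DistribSMul.toAddMonoidHom_apply,
      LinearMap.comp_apply]
    rw [← this]
    rfl
  have h2 : α ∘ₗ β = (AddMonoidHom.mulRight lam).toZModLinearMap p := by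
    refine LinearMap.ext fun e => ?_
    simp only [LinearMap.comp_apply, AddMonoidHom.coe_toZModLinearMap]
    show ℓ (e v) = _
    have : e v = (e * lam) • b i₀ := by
      simp [v, mul_smul]
    rw [this, map_smul]
    simp [ℓ]
  rw [h1, trace_comp_comm', h2]
  exact hlam

end Fermat.Agent.S56.Euler.H366
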