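import Fermat.Agent.S56.Euler.IndSpec
import Fermat.Agent.S56.Euler.H366.Density
import Fermat.Agent.S56.Euler.H366.TraceNZ

/-!
# S56 / Euler / IND — leaf TRIND (helper366)

`traceIndep : TraceIndepStatement`: the trace functions of pairwise non-isomorphic simple
`𝔽_p[G]`-modules are linearly independent over `𝔽_p`.
-/

set_option autoImplicit false
set_option linter.style.haveILetI false

noncomputable section

namespace Fermat.Agent.S56.Euler.H366

open Fermat.Agent.S56.Euler

variable {p : ℕ} [Fact p.Prime] {G : Type} [Group G]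

/-- the carrier of a bundled representation over `ZMod p` is finite -/
lemma finite_carrier (S : FDRepData (ZMod p) G) : Finite S.V :=
  Module.finite_of_finite (ZMod p)

instance (S : FDRepData (ZMod p) G) : Finite S.ρ.asModule := finite_carrier S

/-- simple representations are simple modules over the group algebra -/
lemma isSimpleModule_of_isSimpleRep (S : FDRepData (ZMod p) G) (hS : IsSimpleRep S) :
    IsSimpleModule (MonoidAlgebra (ZMod p) G) S.ρ.asModule := by
  haveI : Nontrivial S.ρ.asModule := hS.1
  haveI : Nontrivial (Submodule (MonoidAlgebra (ZMod p) G) S.ρ.asModule) :=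
    (Submodule.nontrivial_iff _).2 inferInstance
  refine { toIsSimpleOrder := { eq_bot_or_eq_top := fun W => ?_ } }
  let W' : Submodule (ZMod p) S.V :=
    { carrier := {v | S.ρ.asModuleEquiv.symm v ∈ W}
      add_mem' := fun {a b} ha hb => W.add_mem ha hb
      zero_mem' := W.zero_mem
      smul_mem' := fun c v hv => by
        show S.ρ.asModuleEquiv.symm (c • v) ∈ W
        rw [Representation.asModuleEquiv_symm_map_smul]
        exact W.smul_mem _ hv }
  have hW' : ∀ g, ∀ w ∈ W', S.ρ g w ∈ W' := fun g w hw => by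
    show S.ρ.asModuleEquiv.symm (S.ρ g w) ∈ W
    rw [Representation.asModuleEquiv_symm_map_rho]
    exact W.smul_mem _ hw
  rcases hS.2 W' hW' with h | h
  · left
    refine (Submodule.eq_bot_iff _).2 fun x hx => ?_
    have : S.ρ.asModuleEquiv x ∈ W' := by
      show S.ρ.asModuleEquiv.symm (S.ρ.asModuleEquiv x) ∈ W
      simpa using hx
    rw [h, Submodule.mem_bot] at this
    simpa using this
  · right
    refine (Submodule.eq_top_iff').2 fun x => ?_
    have : S.ρ.asModuleEquiv x ∈ W' := by rw [h]; exact Submodule.mem_top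
    have h2 : S.ρ.asModuleEquiv.symm (S.ρ.asModuleEquiv x) ∈ W := this
    simpa using h2

/-- an isomorphism of modules over the group algebra is an isomorphism of representations -/
lemma repIso_of_linearEquiv (S T : FDRepData (ZMod p) G)
    (e : S.ρ.asModule ≃ₗ[MonoidAlgebra (ZMod p) G] T.ρ.asModule) : RepIso S T := by
  let e' : S.V →+ T.V :=
    { toFun := fun v => T.ρ.asModuleEquiv (e (S.ρ.asModuleEquiv.symm v))
      map_zero' := by simp
      map_add' := fun a b => by simp }
  have hbij : Function.Bijective (e'.toZModLinearMap p) := by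
    constructor
    · intro a b hab
      have : e (S.ρ.asModuleEquiv.symm a) = e (S.ρ.asModuleEquiv.symm b) :=
        T.ρ.asModuleEquiv.injective hab
      exact S.ρ.asModuleEquiv.symm.injective (e.injective this)
    · intro b
      refine ⟨S.ρ.asModuleEquiv (e.symm (T.ρ.asModuleEquiv.symm b)), ?_⟩
      show T.ρ.asModuleEquiv (e (S.ρ.asModuleEquiv.symm
        (S.ρ.asModuleEquiv (e.symm (T.ρ.asModuleEquiv.symm b))))) = b
      simp
  refine ⟨LinearEquiv.ofBijective (e'.toZModLinearMap p) hbij, fun g a => ?_⟩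
  show T.ρ.asModuleEquiv (e (S.ρ.asModuleEquiv.symm (S.ρ g a))) =
    T.ρ g (T.ρ.asModuleEquiv (e (S.ρ.asModuleEquiv.symm a)))
  rw [Representation.asModuleEquiv_symm_map_rho, map_smul]
  simp
  rfl

/-- the action of `x` in the group algebra as a `ZMod p`-linear map on the carrier -/
lemma trace_asAlgebraHom (S : FDRepData (ZMod p) G) (x : MonoidAlgebra (ZMod p) G) :
    LinearMap.trace (ZMod p) S.ρ.asModule
        ((DistribSMul.toAddMonoidHom S.ρ.asModule x).toZModLinearMap p) =
      LinearMap.trace (ZMod p) S.V (S.ρ.asAlgebraHom x) :=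
  rfl

/-- separation of `S i₀` from finitely many other simple representations -/
lemma exists_separator [Finite G] {ι : Type} (S : ι → FDRepData (ZMod p) G)
    (hS : ∀ i, IsSimpleRep (S i)) (hiso : ∀ i j, RepIso (S i) (S j) → i = j) (i₀ : ι)
    (s : Finset ι) (hs : i₀ ∉ s) :
    ∃ e : MonoidAlgebra (ZMod p) G, (S i₀).ρ.asAlgebraHom e = 1 ∧
      ∀ j ∈ s, (S j).ρ.asAlgebraHom e = 0 := by
  classical
  induction s using Finset.induction_on with
  | empty => exact ⟨1, map_one _, fun j hj => absurd hj (Finset.notMem_empty j)⟩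
  | insert j s hj ih =>
    have hne : j ≠ i₀ := fun h => hs (h ▸ Finset.mem_insert_self j s)
    have hs' : i₀ ∉ s := fun h => hs (Finset.mem_insert_of_mem h)
    obtain ⟨e, he1, he0⟩ := ih hs'
    haveI := isSimpleModule_of_isSimpleRep (S i₀) (hS i₀)
    haveI := isSimpleModule_of_isSimpleRep (S j) (hS j)
    have hniso : ¬ Nonempty ((S i₀).ρ.asModule ≃ₗ[MonoidAlgebra (ZMod p) G] (S j).ρ.asModule) :=
      fun ⟨f⟩ => hne (hiso i₀ j (repIso_of_linearEquiv _ _ f)).symm
    obtain ⟨r, hr1, hr0⟩ := exists_smul_eq_self_and_zero hniso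
    have h1 : (S i₀).ρ.asAlgebraHom r = 1 := LinearMap.ext fun m => hr1 m
    have h0 : (S j).ρ.asAlgebraHom r = 0 := LinearMap.ext fun m => hr0 m
    refine ⟨r * e, by rw [map_mul, h1, he1, mul_one], fun j' hj' => ?_⟩
    rcases Finset.mem_insert.1 hj' with rfl | hj'
    · rw [map_mul, h0, zero_mul]
    · rw [map_mul, he0 j' hj', mul_zero]

/-- **TRIND.** -/
theorem traceIndep : TraceIndepStatement := by
  intro p _ G _ _ ι _ S hS hiso a ha i₀
  classical
  have hlin : ∀ x : MonoidAlgebra (ZMod p) G,
      ∑ i, a i * LinearMap.trace (ZMod p) (S i).V ((S i).ρ.asAlgebraHom x) = 0 := by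
    intro x
    induction x using MonoidAlgebra.induction_on with
    | of g =>
      simpa [Representation.asAlgebraHom_of] using ha g
    | add x y hx hy =>
      simp only [map_add, mul_add, Finset.sum_add_distrib, hx, hy, add_zero]
    | smul c x hx =>
      have : ∀ i, a i * LinearMap.trace (ZMod p) (S i).V ((S i).ρ.asAlgebraHom (c • x)) =
          c * (a i * LinearMap.trace (ZMod p) (S i).V ((S i).ρ.asAlgebraHom x)) := by
        intro i
        rw [map_smul, map_smul, smul_eq_mul]
        ring
      simp only [this, ← Finset.mul_sum, hx, mul_zero]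
  haveI := isSimpleModule_of_isSimpleRep (S i₀) (hS i₀)
  obtain ⟨r₀, hr₀⟩ := exists_trace_smul_ne_zero p (R := MonoidAlgebra (ZMod p) G)
    (M := (S i₀).ρ.asModule)
  rw [trace_asAlgebraHom] at hr₀
  obtain ⟨e, he1, he0⟩ := exists_separator S hS hiso i₀ (Finset.univ.erase i₀)
    (Finset.notMem_erase i₀ _)
  have hx := hlin (r₀ * e)
  rw [Finset.sum_eq_single i₀] at hx
  · rw [map_mul, he1, mul_one] at hx
    exact (mul_eq_zero.1 hx).resolve_right hr₀
  · intro j _ hj
    rw [map_mul, he0 j (Finset.mem_erase.2 ⟨hj, Finset.mem_univ j⟩), mul_zero, map_zero, mul_zero]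
  · intro h
    exact absurd (Finset.mem_univ i₀) h

end Fermat.Agent.S56.Euler.H366

end
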